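import Fermat.Agent.S37x.FFL.H9_Deg
import Fermat.Agent.S37x.FF.H23_Norm

/-!
# S37 [FFL] (helper9): `Asm.StFFL N M h`, hypothesis-free

Function-field theory of `F_M / F_N` over `ℚ̄` for `N ∣ M`: the inclusion `incL N M h` is
integral and finite, `F_M` has principal divisors, the fundamental identity and the norm formula
hold along `incL`, and all places of `F_M` and `F_N` have degree one.
-/

set_option autoImplicit false
set_option synthInstance.maxHeartbeats 400000
set_option maxHeartbeats 1000000
set_option linter.style.haveILetI false
set_option linter.unusedSectionVars false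

open HahnSeries IntermediateField AlgebraicCurve ModularCurve

noncomputable section

namespace Fermat.Agent.S37x.FFL.H9

variable (N M : ℕ) [NeZero N] [NeZero M]

/-- The norm formula along `incL`. -/
theorem h9_normFormula_incL (h : N ∣ M) :
    NormFormulaAlong (AlgebraicClosure ℚ) (Asm.incL N M h) (h9_finiteAlong_incL N M h) := by
  haveI : CharZero (modularFunctionFieldBar N) :=
    charZero_of_injective_algebraMap
      (algebraMap (AlgebraicClosure ℚ) (modularFunctionFieldBar N)).injective
  exact Fermat.Agent.S37x.FF.H23.h23_normFormulaAlong (Asm.incL N M h)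
    (h9_finiteAlong_incL N M h) (fun v => by rw [h9_deg_eq_one N v]; exact one_ne_zero)

/-- **[FFL]**, hypothesis-free. -/
theorem h9_stFFL (h : N ∣ M) : Asm.StFFL N M h :=
  h9_stFFL_of_norm N M h (h9_normFormula_incL N M h)

end Fermat.Agent.S37x.FFL.H9
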