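import Fermat.Agent.S37x.FFL.H9_FFL
import Fermat.Agent.S37x.Norm.H3_Deg

/-!
# S37 [FFL] (helper9): the degree of `F_M / F_N` along `incL`

* `h9_finrankAlong_incL`     : `finrankAlong incL = relfinrank F_N F_M`;
* `h9_finrankAlong_mul_psi`  : `finrankAlong incL * ψ(N) = ψ(M)`;
* `h9_finrankAlong_prime`    : `finrankAlong incL = p + 1` for `M = p * N`, `p` prime, `p ∤ N`.
-/

set_option autoImplicit false
set_option synthInstance.maxHeartbeats 400000
set_option maxHeartbeats 1000000
set_option linter.style.haveILetI false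
set_option linter.unusedSectionVars false

open HahnSeries IntermediateField AlgebraicCurve ModularCurve

noncomputable section

namespace Fermat.Agent.S37x.FFL.H9

variable (N M : ℕ) [NeZero N] [NeZero M]

/-- The degree along `incL` is the relative degree inside `ℚ̄((q))`. -/
theorem h9_finrankAlong_incL (h : N ∣ M) :
    finrankAlong (AlgebraicClosure ℚ) (Asm.incL N M h) =
      relfinrank (modularFunctionFieldBar N) (modularFunctionFieldBar M) := by
  rw [relfinrank_eq_finrank_of_le (Asm.bar_le_bar N M h)]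
  unfold finrankAlong
  letI := algebraAlong (Asm.incL N M h)
  refine LinearEquiv.finrank_eq
    { toFun := fun x => ⟨x.1, (mem_extendScalars (Asm.bar_le_bar N M h)).mpr x.2⟩
      invFun := fun x => ⟨x.1, (mem_extendScalars (Asm.bar_le_bar N M h)).mp x.2⟩
      left_inv := fun x => rfl
      right_inv := fun x => rfl
      map_add' := fun x y => rfl
      map_smul' := fun c x => rfl }

/-- `[F_M : F_N] * ψ(N) = ψ(M)`. -/
theorem h9_finrankAlong_mul_psi (h : N ∣ M) :
    dedekindPsi N * finrankAlong (AlgebraicClosure ℚ) (Asm.incL N M h) = dedekindPsi M := by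
  rw [h9_finrankAlong_incL N M h]
  have h1 := relfinrank_mul_relfinrank (Fermat.Agent.S37x.Norm.H3.h3_adjoin_j_le N)
    (Asm.bar_le_bar N M h)
  rw [Fermat.Agent.S37x.Norm.H3.h3_relfinrank_j N,
    Fermat.Agent.S37x.Norm.H3.h3_relfinrank_j M] at h1
  exact h1

/-- The degree along `incL` is positive. -/
theorem h9_finrankAlong_pos (h : N ∣ M) :
    0 < finrankAlong (AlgebraicClosure ℚ) (Asm.incL N M h) := by
  have h1 := h9_finrankAlong_mul_psi N M h
  have h2 := Fermat.Agent.S24.Comb.h16_dedekindPsi_pos (NeZero.ne M)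
  rcases Nat.eq_zero_or_pos (finrankAlong (AlgebraicClosure ℚ) (Asm.incL N M h)) with h0 | h0
  · rw [h0, mul_zero] at h1
    omega
  · exact h0

/-- `[F_M : F_N] = p + 1` for `M = p * N`, `p` a prime not dividing `N`. -/
theorem h9_finrankAlong_prime (h : N ∣ M) (p : ℕ) (hp : p.Prime) (hpN : ¬ p ∣ N)
    (hM : M = p * N) :
    finrankAlong (AlgebraicClosure ℚ) (Asm.incL N M h) = p + 1 := by
  have h1 := h9_finrankAlong_mul_psi N M h
  have hcop : Nat.Coprime p N := (Nat.Prime.coprime_iff_not_dvd hp).mpr hpN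
  have h2 : dedekindPsi p = p + 1 := by
    have := Fermat.Agent.S24.Comb.h16_dedekindPsi_prime_pow hp (k := 1) one_pos
    simpa using this
  have h3 : dedekindPsi M = dedekindPsi N * (p + 1) := by
    rw [hM, Fermat.Agent.S24.Comb.h16_dedekindPsi_mul hcop, h2, mul_comm]
  rw [h3] at h1
  exact Nat.eq_of_mul_eq_mul_left (Fermat.Agent.S24.Comb.h16_dedekindPsi_pos (NeZero.ne N)) h1

end Fermat.Agent.S37x.FFL.H9
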