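import Fermat.Agent.S37x.Asm.DefsDesc
import Fermat.Agent.S37x.FF.H23_FundId
import Fermat.Agent.S18x.E.H12_Div
import Fermat.Agent.S18x.Desc.H19_LevelAt

/-!
# S37 [FFL] (helper9): function-field theory of `F_M / F_N` over `ℚ̄`, `N ∣ M`

Wiring of landed pieces for the inclusion `incL N M h : F_N → F_M`:

* `h9_incL_isIntegral`   : `F_M` is integral over `F_N` (helper19);
* `h9_finiteAlong_incL`  : `F_M` is finite over `F_N` (S24: `F_M` is finite over `ℚ̄(j)`);
* `h9_fundId_incL`       : the fundamental identity (helper23, characteristic zero);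
* `h9_deg_eq_one`        : all places have degree one (S24);
* `h9_stFFL_of_norm`     : `Asm.StFFL N M h` from the norm formula along `incL`.
-/

set_option autoImplicit false
set_option synthInstance.maxHeartbeats 400000
set_option maxHeartbeats 1000000
set_option linter.style.haveILetI false
set_option linter.unusedSectionVars false

open HahnSeries IntermediateField AlgebraicCurve ModularCurve

noncomputable section

namespace Fermat.Agent.S37x.FFL.H9

section Generic

variable {K F F' : Type*} [Field K] [Field F] [Field F'] [Algebra K F] [Algebra K F']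

/-- If `F'` is finite over an intermediate field `E` contained in the range of `φ : F → F'`,
then `F'` is finite along `φ`. -/
theorem h9_finiteAlong_of_le_range (φ : F →ₐ[K] F') (E : IntermediateField K F')
    [FiniteDimensional E F'] (hE : ∀ e ∈ E, ∃ f : F, φ f = e) : FiniteAlong K φ := by
  letI := algebraAlong φ
  show Module.Finite F F'
  obtain ⟨s, hs⟩ := (Module.Finite.fg_top : (⊤ : Submodule E F').FG)
  have key : ∀ y : F', y ∈ Submodule.span E (s : Set F') →
      y ∈ Submodule.span F (s : Set F') := by
    intro y hy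
    induction hy using Submodule.span_induction with
    | mem x hx => exact Submodule.subset_span hx
    | zero => exact Submodule.zero_mem _
    | add x y _ _ hx hy => exact Submodule.add_mem _ hx hy
    | smul e x _ hx =>
      obtain ⟨f, hf⟩ := hE e e.2
      have : e • x = f • x := by
        rw [Algebra.smul_def, Algebra.smul_def]
        show (e : F') * x = φ f * x
        rw [hf]
      rw [this]
      exact Submodule.smul_mem _ _ hx
  refine ⟨⟨s, ?_⟩⟩
  rw [eq_top_iff]
  intro y _
  exact key y (by rw [hs]; trivial)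

end Generic

section Level

variable (N M : ℕ) [NeZero N] [NeZero M]

/-- `F_M` is integral over `F_N` along `incL`. -/
theorem h9_incL_isIntegral (h : N ∣ M) : (Asm.incL N M h).toRingHom.IsIntegral := by
  intro x
  exact (Fermat.Agent.S18x.Desc.H19.h19_bar_isIntegral (N := N) (M := M) h).isIntegral x

/-- `F_M` is finite over `F_N` along `incL`. -/
theorem h9_finiteAlong_incL (h : N ∣ M) :
    FiniteAlong (AlgebraicClosure ℚ) (Asm.incL N M h) := by
  haveI := Fermat.Agent.S24.Final.finiteDimensional_jF (K := AlgebraicClosure ℚ)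
    Fermat.Agent.S18x.E.H12.h12_embQbar M
  refine h9_finiteAlong_of_le_range (Asm.incL N M h)
    (AlgebraicClosure ℚ)⟮Fermat.Agent.S24.Final.jF (AlgebraicClosure ℚ) M⟯ ?_
  have hle : (AlgebraicClosure ℚ)⟮Fermat.Agent.S24.Final.jF (AlgebraicClosure ℚ) M⟯ ≤
      (Asm.incL N M h).fieldRange := by
    rw [IntermediateField.adjoin_le_iff]
    rintro x rfl
    exact ⟨Fermat.Agent.S24.Final.jF (AlgebraicClosure ℚ) N, rfl⟩
  intro e he
  exact hle he

/-- All places of `F_N` over `ℚ̄` have degree one. -/
theorem h9_deg_eq_one (P : Place (AlgebraicClosure ℚ) (modularFunctionFieldBar N)) :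
    P.deg = 1 := by
  haveI := Fermat.Agent.S24.Final.finiteDimensional_jF (K := AlgebraicClosure ℚ)
    Fermat.Agent.S18x.E.H12.h12_embQbar N
  exact Fermat.Agent.S24.Alg.deg_eq_one (Fermat.Agent.S24.Final.jF (AlgebraicClosure ℚ) N)
    (Fermat.Agent.S24.Final.transcendental_jF (AlgebraicClosure ℚ) N) P

/-- The fundamental identity along `incL`. -/
theorem h9_fundId_incL (h : N ∣ M) :
    haveI := Fermat.Agent.S18x.E.H12.h12_hasPrincipalDivisors_bar M
    FundamentalIdentityAlong (AlgebraicClosure ℚ) (Asm.incL N M h) (h9_incL_isIntegral N M h) := by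
  haveI := Fermat.Agent.S18x.E.H12.h12_hasPrincipalDivisors_bar M
  exact Fermat.Agent.S37x.FF.H23.h23_fundamentalIdentityAlong (Asm.incL N M h)
    (h9_incL_isIntegral N M h) (h9_finiteAlong_incL N M h)

/-- **[FFL]** from the norm formula along `incL`. -/
theorem h9_stFFL_of_norm (h : N ∣ M)
    (hNF : NormFormulaAlong (AlgebraicClosure ℚ) (Asm.incL N M h) (h9_finiteAlong_incL N M h)) :
    Asm.StFFL N M h :=
  ⟨h9_incL_isIntegral N M h, Fermat.Agent.S18x.E.H12.h12_hasPrincipalDivisors_bar M,
    h9_finiteAlong_incL N M h, h9_fundId_incL N M h, hNF, h9_deg_eq_one M, h9_deg_eq_one N⟩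

end Level

end Fermat.Agent.S37x.FFL.H9
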